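import Mathlib

set_option autoImplicit false

namespace Fermat.Agent.S49

section eigen

variable {K V : Type*} [Field K] [IsAlgClosed K] [AddCommGroup V] [Module K V]
  [FiniteDimensional K V]

/-- A commuting family of endomorphisms has a simultaneous eigenvector in every nonzero
stable subspace. -/
theorem exists_simultaneous_eigenvector (A : Set (Module.End K V))
    (hcomm : ∀ s ∈ A, ∀ t ∈ A, Commute s t) (W : Submodule K V) (hW : W ≠ ⊥)
    (hstab : ∀ t ∈ A, ∀ x ∈ W, t x ∈ W) :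
    ∃ v ∈ W, v ≠ 0 ∧ ∀ t ∈ A, ∃ c : K, t v = c • v := by
  classical
  let 𝒮 : Set (Submodule K V) := {W' | W' ≠ ⊥ ∧ W' ≤ W ∧ ∀ t ∈ A, ∀ x ∈ W', t x ∈ W'}
  have hne : 𝒮.Nonempty := ⟨W, hW, le_rfl, hstab⟩
  obtain ⟨W₀, hW₀, hmin⟩ := (wellFounded_lt (α := Submodule K V)).has_min 𝒮 hne
  obtain ⟨hW₀ne, hW₀le, hW₀stab⟩ := hW₀
  have key : ∀ t ∈ A, ∃ c : K, ∀ x ∈ W₀, t x = c • x := by
    intro t ht
    have : Nontrivial W₀ := Submodule.nontrivial_iff_ne_bot.2 hW₀ne
    obtain ⟨μ, hμ⟩ := Module.End.exists_eigenvalue (t.restrict (hW₀stab t ht))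
    obtain ⟨w, hw⟩ := hμ.exists_hasEigenvector
    have hw1 : t (w : V) = μ • (w : V) := by
      have := hw.apply_eq_smul
      simpa using congrArg Subtype.val this
    have hw2 : (w : V) ≠ 0 := by
      intro h0
      exact hw.2 (Subtype.ext h0)
    let W₁ : Submodule K V := W₀ ⊓ Module.End.eigenspace t μ
    have hW₁ : W₁ ∈ 𝒮 := by
      refine ⟨?_, inf_le_left.trans hW₀le, ?_⟩
      · intro hbot
        have : (w : V) ∈ W₁ := ⟨w.2, Module.End.mem_eigenspace_iff.2 hw1⟩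
        rw [hbot] at this
        exact hw2 ((Submodule.mem_bot K).1 this)
      · intro s hs x hx
        refine ⟨hW₀stab s hs x hx.1, ?_⟩
        rw [SetLike.mem_coe, Module.End.mem_eigenspace_iff]
        have hx2 : t x = μ • x := Module.End.mem_eigenspace_iff.1 hx.2
        have hc : t (s x) = s (t x) := by
          have := hcomm t ht s hs
          exact LinearMap.congr_fun this.eq x
        rw [hc, hx2, map_smul]
    have hle : W₁ ≤ W₀ := inf_le_left
    have heq : W₁ = W₀ := by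
      by_contra hne'
      exact hmin W₁ hW₁ (lt_of_le_of_ne hle hne')
    refine ⟨μ, fun x hx => ?_⟩
    have : x ∈ W₁ := heq ▸ hx
    exact Module.End.mem_eigenspace_iff.1 this.2
  obtain ⟨v, hv, hv0⟩ := Submodule.exists_mem_ne_zero_of_ne_bot hW₀ne
  exact ⟨v, hW₀le hv, hv0, fun t ht => (key t ht).imp fun c hc => hc v hv⟩

/-- A commuting family `A` of endomorphisms, with a multiplicatively closed subset `S` not
containing zero, has a simultaneous eigenvector not killed by any element of `S`. -/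
theorem exists_simultaneous_eigenvector_avoiding (A S : Set (Module.End K V))
    (hcomm : ∀ s ∈ A, ∀ t ∈ A, Commute s t) (hSA : S ⊆ A) (hSne : S.Nonempty)
    (hSmul : ∀ s ∈ S, ∀ t ∈ S, s * t ∈ S) (hS0 : (0 : Module.End K V) ∉ S) :
    ∃ v : V, v ≠ 0 ∧ (∀ t ∈ A, ∃ c : K, t v = c • v) ∧ ∀ s ∈ S, s v ≠ 0 := by
  classical
  let 𝒦 : Set (Submodule K V) := (fun s : Module.End K V => LinearMap.ker s) '' S
  have hne : 𝒦.Nonempty := hSne.image _
  obtain ⟨W₀, hW₀, hmax⟩ := (wellFounded_gt (α := Submodule K V)).has_min 𝒦 hne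
  obtain ⟨s₀, hs₀, rfl⟩ := hW₀
  have hs₀ne : s₀ ≠ 0 := fun h => hS0 (h ▸ hs₀)
  have hrange : LinearMap.range s₀ ≠ ⊥ := by
    intro h
    exact hs₀ne (LinearMap.range_eq_bot.1 h)
  have hstab : ∀ t ∈ A, ∀ x ∈ LinearMap.range s₀, t x ∈ LinearMap.range s₀ := by
    rintro t ht _ ⟨y, rfl⟩
    refine ⟨t y, ?_⟩
    exact LinearMap.congr_fun (hcomm s₀ (hSA hs₀) t ht).eq y
  obtain ⟨v, hvW, hv0, hv⟩ := exists_simultaneous_eigenvector A hcomm _ hrange hstab
  refine ⟨v, hv0, hv, ?_⟩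
  intro s hs hsv
  obtain ⟨y, rfl⟩ := hvW
  have hmem : LinearMap.ker (s * s₀) ∈ 𝒦 := ⟨s * s₀, hSmul s hs s₀ hs₀, rfl⟩
  have hle : LinearMap.ker s₀ ≤ LinearMap.ker (s * s₀) := by
    intro x hx
    rw [LinearMap.mem_ker] at hx ⊢
    rw [Module.End.mul_apply, hx, map_zero]
  have heq : LinearMap.ker s₀ = LinearMap.ker (s * s₀) := by
    by_contra hne'
    exact hmax _ hmem (lt_of_le_of_ne hle hne')
  have hy : y ∈ LinearMap.ker (s * s₀) := by
    rw [LinearMap.mem_ker, Module.End.mul_apply]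
    exact hsv
  rw [← heq, LinearMap.mem_ker] at hy
  exact hv0 hy

end eigen

end Fermat.Agent.S49
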