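import Mathlib
import Fermat.Prelude.Def_FormalHecke_Eigensystem

set_option autoImplicit false

namespace Fermat.Agent.S49

variable {R : Type*} [CommRing R]

/-- A formal Hecke eigensystem is multiplicative on coprime arguments. -/
theorem mul_of_isEigensystem {e a : ℕ → R} (h : FormalHecke.IsEigensystem e a) :
    ∀ m n : ℕ, m.Coprime n → a (m * n) = a m * a n := by
  obtain ⟨h1, hrec⟩ := h
  intro m
  induction m using Nat.strong_induction_on with
  | _ m ih =>
    intro n hmn
    rcases Nat.eq_zero_or_pos m with rfl | hmpos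
    · have hn : n = 1 := by simpa using hmn
      subst hn
      simp [h1]
    rcases Nat.lt_or_ge 1 m with hm1 | hm1
    swap
    · have : m = 1 := by omega
      subst this
      simp [h1]
    obtain ⟨ℓ, hℓ, k, rfl⟩ : ∃ ℓ : ℕ, ℓ.Prime ∧ ∃ k, m = ℓ * k := by
      obtain ⟨ℓ, hℓ, hd⟩ := Nat.exists_prime_and_dvd (n := m) (by omega)
      exact ⟨ℓ, hℓ, hd⟩
    have hkpos : 0 < k := Nat.pos_of_mul_pos_left hmpos |> fun h => by
      rcases Nat.eq_zero_or_pos k with rfl | h'
      · simp at hmpos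
      · exact h'
    have hklt : k < ℓ * k := by
      have := hℓ.two_le
      nlinarith
    have hkn : k.Coprime n := Nat.Coprime.coprime_mul_left hmn
    have hℓn : ℓ.Coprime n := Nat.Coprime.coprime_mul_right hmn
    have hℓn' : ¬ ℓ ∣ n := by
      intro hd
      have := Nat.Coprime.eq_one_of_dvd hℓn hd
      exact hℓ.one_lt.ne' this
    have e1 := hrec ℓ hℓ (k * n)
    have e2 := hrec ℓ hℓ k
    have ihk := ih k hklt n hkn
    by_cases hd : ℓ ∣ k
    · have hd' : ℓ ∣ k * n := Dvd.dvd.mul_right hd n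
      rw [if_pos hd'] at e1
      rw [if_pos hd] at e2
      obtain ⟨j, rfl⟩ := hd
      have hj1 : ℓ * j * n / ℓ = j * n := by
        rw [mul_assoc, Nat.mul_div_cancel_left _ hℓ.pos]
      have hj2 : ℓ * j / ℓ = j := Nat.mul_div_cancel_left _ hℓ.pos
      rw [hj1] at e1
      rw [hj2] at e2
      have hjlt : j < ℓ * (ℓ * j) := by
        have h2 := hℓ.two_le
        have hjpos : 0 < j := by
          rcases Nat.eq_zero_or_pos j with rfl | h'
          · simp at hkpos
          · exact h'
        nlinarith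
      have hjn : j.Coprime n := Nat.Coprime.coprime_mul_left hkn
      have ihj := ih j hjlt n hjn
      rw [ihk, ihj] at e1
      have : a (ℓ * (ℓ * j) * n) = a (ℓ * (ℓ * j * n)) := by rw [mul_assoc]
      rw [this]
      linear_combination e1 - a n * e2
    · have hd' : ¬ ℓ ∣ k * n := by
        intro hdd
        rcases (Nat.Prime.dvd_mul hℓ).1 hdd with h' | h'
        · exact hd h'
        · exact hℓn' h'
      rw [if_neg hd'] at e1
      rw [if_neg hd] at e2
      rw [ihk] at e1
      have : a (ℓ * k * n) = a (ℓ * (k * n)) := by rw [mul_assoc]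
      rw [this]
      linear_combination e1 - a n * e2

/-- A formal Hecke eigensystem satisfies the prime power recursion. -/
theorem rec_of_isEigensystem {e a : ℕ → R} (h : FormalHecke.IsEigensystem e a) :
    ∀ ℓ r : ℕ, ℓ.Prime → a (ℓ ^ (r + 2)) = a ℓ * a (ℓ ^ (r + 1)) - e ℓ * a (ℓ ^ r) := by
  obtain ⟨-, hrec⟩ := h
  intro ℓ r hℓ
  have e1 := hrec ℓ hℓ (ℓ ^ (r + 1))
  have hd : ℓ ∣ ℓ ^ (r + 1) := dvd_pow_self ℓ (by omega)
  rw [if_pos hd] at e1
  have h1 : ℓ ^ (r + 1) / ℓ = ℓ ^ r := by
    rw [pow_succ, Nat.mul_div_cancel _ hℓ.pos]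
  have h2 : ℓ * ℓ ^ (r + 1) = ℓ ^ (r + 2) := by ring
  rw [h1, h2] at e1
  linear_combination e1

/-- If the Hecke relations hold (with unspecified eigenvalues) and the coefficients of index
`0` and `1` vanish then all the coefficients vanish. -/
theorem eq_zero_of_relations {e b : ℕ → R} (h0 : b 0 = 0) (h1 : b 1 = 0)
    (hrec : ∀ ℓ : ℕ, ℓ.Prime → ∃ c : R, ∀ n : ℕ,
      b (ℓ * n) + e ℓ * (if ℓ ∣ n then b (n / ℓ) else 0) = c * b n) :
    ∀ n, b n = 0 := by
  intro n
  induction n using Nat.strong_induction_on with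
  | _ n ih =>
    rcases Nat.eq_zero_or_pos n with rfl | hpos
    · exact h0
    rcases Nat.lt_or_ge 1 n with hn1 | hn1
    swap
    · have : n = 1 := by omega
      subst this
      exact h1
    obtain ⟨ℓ, hℓ, k, rfl⟩ : ∃ ℓ : ℕ, ℓ.Prime ∧ ∃ k, n = ℓ * k := by
      obtain ⟨ℓ, hℓ, hd⟩ := Nat.exists_prime_and_dvd (n := n) (by omega)
      exact ⟨ℓ, hℓ, hd⟩
    have hkpos : 0 < k := by
      rcases Nat.eq_zero_or_pos k with rfl | h'
      · simp at hpos
      · exact h'
    have hklt : k < ℓ * k := by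
      have := hℓ.two_le
      nlinarith
    obtain ⟨c, hc⟩ := hrec ℓ hℓ
    have e1 := hc k
    rw [ih k hklt] at e1
    by_cases hd : ℓ ∣ k
    · rw [if_pos hd] at e1
      have : k / ℓ < ℓ * k := lt_of_le_of_lt (Nat.div_le_self k ℓ) hklt
      rw [ih _ this] at e1
      simpa using e1
    · rw [if_neg hd] at e1
      simpa using e1

end Fermat.Agent.S49
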