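import Mathlib
import Fermat.Agent.S49.QCoeff

set_option autoImplicit false

namespace Fermat.Agent.S49

open CongruenceSubgroup ModularFormClass UpperHalfPlane EisensteinWeightOne CuspForm

theorem three_dvd_bridgeProduct_sub (a : ℕ → ℤ) (n : ℕ) :
    (3 : ℤ) ∣ (bridgeProduct a).coeff n - a n := by
  let E' : PowerSeries ℤ := PowerSeries.mk fun n => if n = 0 then 0 else 2 * sigmaChi n
  have hE : e1Chi3In ℤ = 1 + PowerSeries.C (3 : ℤ) * E' := by
    ext m
    simp only [e1Chi3In, e1Chi3, E', PowerSeries.coeff_one, PowerSeries.coeff_map,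
      PowerSeries.coeff_mk, map_add, PowerSeries.coeff_C_mul]
    split_ifs <;> simp <;> ring
  have h2 : PowerSeries.mk a * (1 + PowerSeries.C (3 : ℤ) * E') =
      PowerSeries.mk a + PowerSeries.C (3 : ℤ) * (PowerSeries.mk a * E') := by ring
  unfold bridgeProduct
  rw [hE, h2, map_add, PowerSeries.coeff_mk, PowerSeries.coeff_C_mul]
  exact ⟨(PowerSeries.mk a * E').coeff n, by ring⟩

theorem three_dvd_sub_chiNegThree (ℓ : ℕ) : (3 : ℤ) ∣ (ℓ : ℤ) - chiNegThree ℓ := by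
  unfold chiNegThree
  split_ifs <;> omega

variable {N : ℕ}

/-- All the `q`-expansion coefficients are integers divisible by three. -/
def Div3 (g : CuspForm (Gamma0 N) 2) : Prop := ∀ n : ℕ, ∃ m : ℤ, qCoeff g n = 3 * (m : ℂ)

theorem Div3.zero : Div3 (0 : CuspForm (Gamma0 N) 2) := fun n =>
  ⟨0, by simpa using (qCoeffLin N 2 n).map_zero⟩

theorem Div3.add {f g : CuspForm (Gamma0 N) 2} (hf : Div3 f) (hg : Div3 g) : Div3 (f + g) := by
  intro n
  obtain ⟨x, hx⟩ := hf n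
  obtain ⟨y, hy⟩ := hg n
  exact ⟨x + y, by rw [qCoeff_add, hx, hy]; push_cast; ring⟩

theorem Div3.hecke [NeZero N] {S : Set ℕ} {t : Module.End ℂ (CuspForm (Gamma0 N) 2)}
    (ht : t ∈ heckeAlgebra N 2 S) {g : CuspForm (Gamma0 N) 2} (hg : Div3 g) : Div3 (t g) := by
  have h1 : (3 : ℂ)⁻¹ • g ∈ intLattice N 2 := by
    apply mem_intLattice_of_qCoeff_int
    intro n
    obtain ⟨m, hm⟩ := hg n
    exact ⟨m, by rw [qCoeff_smul, hm]; field_simp⟩
  have h2 := mem_intLattice_of_mem_heckeAlgebra (by norm_num) ht h1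
  intro n
  obtain ⟨m, hm⟩ := qCoeff_int_of_mem_intLattice h2 n
  refine ⟨m, ?_⟩
  rw [map_smul, qCoeff_smul] at hm
  rw [← hm]
  field_simp

/-- The ideal of the Hecke operators sending `f₀` to a form divisible by three. -/
def congIdeal (N : ℕ) [NeZero N] (f₀ : CuspForm (Gamma0 N) 2) :
    Ideal (heckeAlgebra N 2 (∅ : Set ℕ)) where
  carrier := {t | Div3 ((t : Module.End ℂ (CuspForm (Gamma0 N) 2)) f₀)}
  add_mem' := by
    intro s t hs ht
    exact Div3.add hs ht
  zero_mem' := Div3.zero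
  smul_mem' := by
    intro s t ht
    exact Div3.hecke s.2 ht

theorem mem_congIdeal [NeZero N] {f₀ : CuspForm (Gamma0 N) 2}
    {t : heckeAlgebra N 2 (∅ : Set ℕ)} :
    t ∈ congIdeal N f₀ ↔ Div3 ((t : Module.End ℂ (CuspForm (Gamma0 N) 2)) f₀) := Iff.rfl

end Fermat.Agent.S49
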