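import Mathlib
import Fermat.Agent.S49.LinAlg

set_option autoImplicit false

namespace Fermat.Agent.S49

/-- Every element of a ring acting faithfully on a complex vector space and stabilising a
finitely generated spanning lattice is integral over `ℤ`. -/
theorem isIntegral_of_lattice {R V : Type*} [CommRing R] [AddCommGroup V] [Module ℂ V]
    (ρ : R →+* Module.End ℂ V) (hρ : Function.Injective ρ)
    (L : Submodule ℤ V) (hLfg : L.FG) (hLspan : Submodule.span ℂ (L : Set V) = ⊤)
    (hLstab : ∀ t : R, ∀ x ∈ L, ρ t x ∈ L) (t : R) : IsIntegral ℤ t := by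
  have : Module.Finite ℤ L := Module.Finite.iff_fg.2 hLfg
  let f : R →+* Module.End ℤ L :=
    { toFun := fun t => ((ρ t).restrictScalars ℤ).restrict (hLstab t)
      map_one' := by
        ext x
        simp
      map_mul' := by
        intro a b
        ext x
        simp only [map_mul]
        rfl
      map_zero' := by
        ext x
        simp
      map_add' := by
        intro a b
        ext x
        simp only [map_add]
        rfl }
  have hf : Function.Injective f.toIntAlgHom := by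
    intro a b hab
    apply hρ
    have hab' : ∀ x ∈ L, ρ a x = ρ b x := by
      intro x hx
      have := LinearMap.congr_fun hab ⟨x, hx⟩
      exact congrArg Subtype.val this
    apply LinearMap.ext_on hLspan
    intro x hx
    exact hab' x hx
  rw [← isIntegral_algHom_iff f.toIntAlgHom hf]
  exact Algebra.IsIntegral.isIntegral _

/-- The Deligne--Serre lifting lemma, in an abstract form. -/
theorem deligne_serre {R V : Type*} [CommRing R] [AddCommGroup V] [Module ℂ V]
    (ρ : R →+* Module.End ℂ V) (hρ : Function.Injective ρ)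
    (L : Submodule ℤ V) (hLfg : L.FG) (hLspan : Submodule.span ℂ (L : Set V) = ⊤)
    (hLstab : ∀ t : R, ∀ x ∈ L, ρ t x ∈ L)
    (𝔪 : Ideal R) (h𝔪 : 𝔪 ≠ ⊤) :
    ∃ (lam : R →+* integralClosure ℤ ℂ) (v : V) (𝔪' : Ideal (integralClosure ℤ ℂ)),
      v ≠ 0 ∧ (∀ t, ρ t v = (lam t : ℂ) • v) ∧ 𝔪'.IsMaximal ∧ ∀ t ∈ 𝔪, lam t ∈ 𝔪' := by
  classical
  have hfin : Module.Finite ℂ V := by
    obtain ⟨s, hs⟩ := hLfg
    refine ⟨⟨s, ?_⟩⟩
    rw [← hLspan, ← hs, Submodule.span_span_of_tower]
  obtain ⟨𝔪₀, h𝔪₀max, h𝔪₀le⟩ := Ideal.exists_le_maximal 𝔪 h𝔪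
  have h𝔪₀prime : 𝔪₀.IsPrime := h𝔪₀max.isPrime
  obtain ⟨v, hv0, hveig, hvS⟩ := exists_simultaneous_eigenvector_avoiding
    (K := ℂ) (V := V) (Set.range ρ) (ρ '' {t | t ∉ 𝔪₀})
    (by
      rintro _ ⟨s, rfl⟩ _ ⟨t, rfl⟩
      exact (Commute.all s t).map ρ)
    (by
      rintro _ ⟨s, -, rfl⟩
      exact ⟨s, rfl⟩)
    ⟨ρ 1, 1, (Ideal.ne_top_iff_one 𝔪₀).1 h𝔪₀prime.ne_top, rfl⟩
    (by
      rintro _ ⟨s, hs, rfl⟩ _ ⟨t, ht, rfl⟩
      refine ⟨s * t, ?_, map_mul ρ s t⟩
      intro hst
      rcases h𝔪₀prime.mem_or_mem hst with h | h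
      · exact hs h
      · exact ht h)
    (by
      rintro ⟨s, hs, hs0⟩
      have : s = 0 := hρ (by rw [hs0, map_zero])
      exact hs (this ▸ 𝔪₀.zero_mem))
  have hveig' : ∀ t : R, ∃ c : ℂ, ρ t v = c • v := fun t => hveig (ρ t) ⟨t, rfl⟩
  choose lam₀ hlam₀ using hveig'
  have hinj : Function.Injective fun c : ℂ => c • v := smul_left_injective ℂ hv0
  let lam₁ : R →+* ℂ :=
    { toFun := lam₀
      map_one' := by
        apply hinj
        change lam₀ 1 • v = (1 : ℂ) • v
        rw [← hlam₀, map_one, one_smul, Module.End.one_apply]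
      map_mul' := by
        intro a b
        apply hinj
        change lam₀ (a * b) • v = (lam₀ a * lam₀ b) • v
        rw [← hlam₀, map_mul, Module.End.mul_apply, hlam₀ b, map_smul, hlam₀ a, smul_smul,
          mul_comm]
      map_zero' := by
        apply hinj
        change lam₀ 0 • v = (0 : ℂ) • v
        rw [← hlam₀, map_zero, zero_smul, LinearMap.zero_apply]
      map_add' := by
        intro a b
        apply hinj
        change lam₀ (a + b) • v = (lam₀ a + lam₀ b) • v
        rw [← hlam₀, map_add, LinearMap.add_apply, hlam₀ a, hlam₀ b, add_smul] }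
  have hint : ∀ t : R, lam₁ t ∈ integralClosure ℤ ℂ := by
    intro t
    have h1 : IsIntegral ℤ t := isIntegral_of_lattice ρ hρ L hLfg hLspan hLstab t
    exact h1.map lam₁.toIntAlgHom
  let lam : R →+* integralClosure ℤ ℂ := lam₁.codRestrict (integralClosure ℤ ℂ) hint
  have hlam : ∀ t, ((lam t : integralClosure ℤ ℂ) : ℂ) = lam₀ t := fun t => rfl
  let _ : Algebra R (integralClosure ℤ ℂ) := lam.toAlgebra
  have hintegral : Algebra.IsIntegral R (integralClosure ℤ ℂ) := by
    refine ⟨fun x => ?_⟩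
    have hx : IsIntegral ℤ x := Algebra.IsIntegral.isIntegral x
    exact hx.tower_top
  have hker : RingHom.ker (algebraMap R (integralClosure ℤ ℂ)) ≤ 𝔪₀ := by
    intro s hs
    by_contra hsm
    have h0 : lam s = 0 := hs
    have h1 : lam₀ s = 0 := by
      rw [← hlam, h0]
      rfl
    apply hvS (ρ s) ⟨s, hsm, rfl⟩
    rw [hlam₀, h1, zero_smul]
  obtain ⟨𝔪', h𝔪'max, h𝔪'⟩ := Ideal.exists_ideal_over_maximal_of_isIntegral 𝔪₀ hker
  refine ⟨lam, v, 𝔪', hv0, fun t => ?_, h𝔪'max, fun t ht => ?_⟩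
  · rw [hlam, hlam₀]
  · have : t ∈ 𝔪'.comap (algebraMap R (integralClosure ℤ ℂ)) := by
      rw [h𝔪']
      exact h𝔪₀le ht
    exact this

end Fermat.Agent.S49
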